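/-
Project MW (S17), leaf [BL↓] (helper24), part 1: LOCAL inequalities for the sup norm of vectors over
a field with an absolute value: linear forms, Plücker vectors, and the triangle inequality for the
chordal distance [TRI].  Mathlib only.  Prefix `mw_bll_`.
-/
import Mathlib

set_option autoImplicit false
set_option linter.unusedSectionVars false

noncomputable section

namespace Fermat.Agent.MW

open scoped Classical

variable {F : Type*} [Field F] (w : AbsoluteValue F ℝ)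

/-- the sup norm of a finite vector -/
def mw_bll_nrm {ι : Type*} [Fintype ι] (v : ι → F) : ℝ := ⨆ i, w (v i)

variable {ι : Type*} [Fintype ι]

theorem mw_bll_le_nrm (v : ι → F) (i : ι) : w (v i) ≤ mw_bll_nrm w v :=
  le_ciSup (Set.finite_range fun i => w (v i)).bddAbove i

theorem mw_bll_nrm_nonneg (v : ι → F) : 0 ≤ mw_bll_nrm w v :=
  Real.iSup_nonneg fun _ => w.nonneg _

theorem mw_bll_nrm_le {v : ι → F} {B : ℝ} (hB : 0 ≤ B) (h : ∀ i, w (v i) ≤ B) :
    mw_bll_nrm w v ≤ B := by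
  rcases isEmpty_or_nonempty ι with hι | hι
  · rw [mw_bll_nrm, Real.iSup_of_isEmpty]; exact hB
  · exact ciSup_le h

theorem mw_bll_nrm_pos {v : ι → F} (hv : v ≠ 0) : 0 < mw_bll_nrm w v := by
  obtain ⟨i, hi⟩ := Function.ne_iff.mp hv
  exact lt_of_lt_of_le (w.pos hi) (mw_bll_le_nrm w v i)

/-- nonarchimedean absolute value of a finite sum -/
theorem mw_bll_nonarch_sum (hw : IsNonarchimedean w) {κ : Type*} (s : Finset κ) (f : κ → F)
    {B : ℝ} (hB : 0 ≤ B) (h : ∀ i ∈ s, w (f i) ≤ B) : w (∑ i ∈ s, f i) ≤ B := by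
  induction s using Finset.induction_on with
  | empty => simpa using hB
  | insert a s ha ih =>
    rw [Finset.sum_insert ha]
    exact (hw _ _).trans (max_le (h a (Finset.mem_insert_self a s))
      (ih fun i hi => h i (Finset.mem_insert_of_mem hi)))

/-! ### linear forms -/

theorem mw_bll_dot_le (c u : ι → F) :
    w (∑ i, c i * u i) ≤ (Fintype.card ι : ℝ) * (mw_bll_nrm w c * mw_bll_nrm w u) := by
  calc w (∑ i, c i * u i) ≤ ∑ i, w (c i * u i) := w.sum_le _ _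
    _ ≤ ∑ _i : ι, mw_bll_nrm w c * mw_bll_nrm w u := by
        refine Finset.sum_le_sum fun i _ => ?_
        rw [w.map_mul]
        exact mul_le_mul (mw_bll_le_nrm w c i) (mw_bll_le_nrm w u i) (w.nonneg _)
          (mw_bll_nrm_nonneg w c)
    _ = (Fintype.card ι : ℝ) * (mw_bll_nrm w c * mw_bll_nrm w u) := by
        rw [Finset.sum_const, Finset.card_univ, nsmul_eq_mul]

theorem mw_bll_dot_le_nonarch (hw : IsNonarchimedean w) (c u : ι → F) :
    w (∑ i, c i * u i) ≤ mw_bll_nrm w c * mw_bll_nrm w u := by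
  refine mw_bll_nonarch_sum w hw _ _
    (mul_nonneg (mw_bll_nrm_nonneg w c) (mw_bll_nrm_nonneg w u)) fun i _ => ?_
  rw [w.map_mul]
  exact mul_le_mul (mw_bll_le_nrm w c i) (mw_bll_le_nrm w u i) (w.nonneg _)
    (mw_bll_nrm_nonneg w c)

/-! ### Plücker vectors -/

/-- the Plücker vector `u ∧ v` over `F` -/
def mw_bll_wedge (u v : ι → F) : ι × ι → F := fun p => u p.1 * v p.2 - u p.2 * v p.1

theorem mw_bll_wedge_le (u v : ι → F) :
    mw_bll_nrm w (mw_bll_wedge u v) ≤ 2 * (mw_bll_nrm w u * mw_bll_nrm w v) := by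
  have hB : 0 ≤ mw_bll_nrm w u * mw_bll_nrm w v :=
    mul_nonneg (mw_bll_nrm_nonneg w u) (mw_bll_nrm_nonneg w v)
  refine mw_bll_nrm_le w (by linarith) fun p => ?_
  have h1 : w (u p.1 * v p.2) ≤ mw_bll_nrm w u * mw_bll_nrm w v := by
    rw [w.map_mul]
    exact mul_le_mul (mw_bll_le_nrm w u _) (mw_bll_le_nrm w v _) (w.nonneg _)
      (mw_bll_nrm_nonneg w u)
  have h2 : w (u p.2 * v p.1) ≤ mw_bll_nrm w u * mw_bll_nrm w v := by
    rw [w.map_mul]
    exact mul_le_mul (mw_bll_le_nrm w u _) (mw_bll_le_nrm w v _) (w.nonneg _)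
      (mw_bll_nrm_nonneg w u)
  calc w (mw_bll_wedge u v p) ≤ w (u p.1 * v p.2) + w (u p.2 * v p.1) := w.sub_le_add _ _
    _ ≤ 2 * (mw_bll_nrm w u * mw_bll_nrm w v) := by linarith

theorem mw_bll_wedge_le_nonarch (hw : IsNonarchimedean w) (u v : ι → F) :
    mw_bll_nrm w (mw_bll_wedge u v) ≤ mw_bll_nrm w u * mw_bll_nrm w v := by
  have hB : 0 ≤ mw_bll_nrm w u * mw_bll_nrm w v :=
    mul_nonneg (mw_bll_nrm_nonneg w u) (mw_bll_nrm_nonneg w v)
  refine mw_bll_nrm_le w hB fun p => ?_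
  have h1 : w (u p.1 * v p.2) ≤ mw_bll_nrm w u * mw_bll_nrm w v := by
    rw [w.map_mul]
    exact mul_le_mul (mw_bll_le_nrm w u _) (mw_bll_le_nrm w v _) (w.nonneg _)
      (mw_bll_nrm_nonneg w u)
  have h2 : w (u p.2 * v p.1) ≤ mw_bll_nrm w u * mw_bll_nrm w v := by
    rw [w.map_mul]
    exact mul_le_mul (mw_bll_le_nrm w u _) (mw_bll_le_nrm w v _) (w.nonneg _)
      (mw_bll_nrm_nonneg w u)
  have : mw_bll_wedge u v p = u p.1 * v p.2 + -(u p.2 * v p.1) := by
    rw [mw_bll_wedge]; ring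
  rw [this]
  refine (hw _ _).trans (max_le h1 ?_)
  rw [w.map_neg]; exact h2

theorem mw_bll_wedge_swap (u v : ι → F) :
    mw_bll_nrm w (mw_bll_wedge u v) = mw_bll_nrm w (mw_bll_wedge v u) := by
  rw [mw_bll_nrm, mw_bll_nrm]
  congr 1
  funext p
  have : mw_bll_wedge u v p = -mw_bll_wedge v u p := by
    rw [mw_bll_wedge, mw_bll_wedge]; ring
  rw [this, w.map_neg]

/-! ### [TRI] -/

/-- the Plücker identity `z_c (u ∧ v)_{ab} = u_a (z ∧ v)_{cb} - u_b (z ∧ v)_{ca} + v_c (u ∧ z)_{ab}` -/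
theorem mw_bll_plucker (u v z : ι → F) (a b c : ι) :
    z c * mw_bll_wedge u v (a, b)
      = u a * mw_bll_wedge z v (c, b) - u b * mw_bll_wedge z v (c, a)
        + v c * mw_bll_wedge u z (a, b) := by
  simp only [mw_bll_wedge]
  ring

/-- **[TRI]**, general form: `‖z‖ ‖u ∧ v‖ ≤ 2 ‖u‖ ‖z ∧ v‖ + ‖v‖ ‖u ∧ z‖` -/
theorem mw_bll_tri [Nonempty ι] (u v z : ι → F) :
    mw_bll_nrm w z * mw_bll_nrm w (mw_bll_wedge u v)
      ≤ 2 * (mw_bll_nrm w u * mw_bll_nrm w (mw_bll_wedge z v))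
        + mw_bll_nrm w v * mw_bll_nrm w (mw_bll_wedge u z) := by
  obtain ⟨c, hc⟩ := exists_eq_ciSup_of_finite (f := fun i => w (z i))
  have hc' : w (z c) = mw_bll_nrm w z := hc
  have hB : 0 ≤ 2 * (mw_bll_nrm w u * mw_bll_nrm w (mw_bll_wedge z v))
        + mw_bll_nrm w v * mw_bll_nrm w (mw_bll_wedge u z) := by
    have := mw_bll_nrm_nonneg w u
    have := mw_bll_nrm_nonneg w v
    have := mw_bll_nrm_nonneg w (mw_bll_wedge z v)
    have := mw_bll_nrm_nonneg w (mw_bll_wedge u z)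
    positivity
  rw [← hc', mw_bll_nrm, Real.mul_iSup_of_nonneg (w.nonneg _)]
  refine ciSup_le fun p => ?_
  obtain ⟨a, b⟩ := p
  rw [← w.map_mul, mw_bll_plucker]
  have h1 : w (u a * mw_bll_wedge z v (c, b))
      ≤ mw_bll_nrm w u * mw_bll_nrm w (mw_bll_wedge z v) := by
    rw [w.map_mul]
    exact mul_le_mul (mw_bll_le_nrm w u _) (mw_bll_le_nrm w _ _) (w.nonneg _)
      (mw_bll_nrm_nonneg w u)
  have h2 : w (u b * mw_bll_wedge z v (c, a))
      ≤ mw_bll_nrm w u * mw_bll_nrm w (mw_bll_wedge z v) := by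
    rw [w.map_mul]
    exact mul_le_mul (mw_bll_le_nrm w u _) (mw_bll_le_nrm w _ _) (w.nonneg _)
      (mw_bll_nrm_nonneg w u)
  have h3 : w (v c * mw_bll_wedge u z (a, b))
      ≤ mw_bll_nrm w v * mw_bll_nrm w (mw_bll_wedge u z) := by
    rw [w.map_mul]
    exact mul_le_mul (mw_bll_le_nrm w v _) (mw_bll_le_nrm w _ _) (w.nonneg _)
      (mw_bll_nrm_nonneg w v)
  calc w (u a * mw_bll_wedge z v (c, b) - u b * mw_bll_wedge z v (c, a)
          + v c * mw_bll_wedge u z (a, b))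
      ≤ w (u a * mw_bll_wedge z v (c, b) - u b * mw_bll_wedge z v (c, a))
          + w (v c * mw_bll_wedge u z (a, b)) := w.add_le _ _
    _ ≤ (w (u a * mw_bll_wedge z v (c, b)) + w (u b * mw_bll_wedge z v (c, a)))
          + w (v c * mw_bll_wedge u z (a, b)) := by
        gcongr
        exact w.sub_le_add _ _
    _ ≤ _ := by linarith

/-- **[TRI]**, nonarchimedean form: `‖z‖ ‖u ∧ v‖ ≤ max (‖u‖ ‖z ∧ v‖) (‖v‖ ‖u ∧ z‖)` -/
theorem mw_bll_tri_nonarch [Nonempty ι] (hw : IsNonarchimedean w) (u v z : ι → F) :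
    mw_bll_nrm w z * mw_bll_nrm w (mw_bll_wedge u v)
      ≤ max (mw_bll_nrm w u * mw_bll_nrm w (mw_bll_wedge z v))
        (mw_bll_nrm w v * mw_bll_nrm w (mw_bll_wedge u z)) := by
  obtain ⟨c, hc⟩ := exists_eq_ciSup_of_finite (f := fun i => w (z i))
  have hc' : w (z c) = mw_bll_nrm w z := hc
  rw [← hc', mw_bll_nrm, Real.mul_iSup_of_nonneg (w.nonneg _)]
  refine ciSup_le fun p => ?_
  obtain ⟨a, b⟩ := p
  rw [← w.map_mul, mw_bll_plucker]
  have h1 : w (u a * mw_bll_wedge z v (c, b))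
      ≤ mw_bll_nrm w u * mw_bll_nrm w (mw_bll_wedge z v) := by
    rw [w.map_mul]
    exact mul_le_mul (mw_bll_le_nrm w u _) (mw_bll_le_nrm w _ _) (w.nonneg _)
      (mw_bll_nrm_nonneg w u)
  have h2 : w (-(u b * mw_bll_wedge z v (c, a)))
      ≤ mw_bll_nrm w u * mw_bll_nrm w (mw_bll_wedge z v) := by
    rw [w.map_neg, w.map_mul]
    exact mul_le_mul (mw_bll_le_nrm w u _) (mw_bll_le_nrm w _ _) (w.nonneg _)
      (mw_bll_nrm_nonneg w u)
  have h3 : w (v c * mw_bll_wedge u z (a, b))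
      ≤ mw_bll_nrm w v * mw_bll_nrm w (mw_bll_wedge u z) := by
    rw [w.map_mul]
    exact mul_le_mul (mw_bll_le_nrm w v _) (mw_bll_le_nrm w _ _) (w.nonneg _)
      (mw_bll_nrm_nonneg w v)
  rw [sub_eq_add_neg]
  refine (hw _ _).trans (max_le ((hw _ _).trans (max_le ?_ ?_)) ?_)
  · exact h1.trans (le_max_left _ _)
  · exact h2.trans (le_max_left _ _)
  · exact h3.trans (le_max_right _ _)

end Fermat.Agent.MW
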