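/-
Project MW (S17), leaf [BL↓] (helper24), part 2: the absolute height `mw_ht` is invariant under
scaling, `log δ_w` as a bundled local function and its total sum `-[K':ℚ]·h_Δ`.  Prefix `mw_bll_`.
-/
import Fermat.Agent.MW.Global.Glob
import Fermat.Agent.MW.Global.BLlow.Local

set_option autoImplicit false
set_option linter.unusedSectionVars false

noncomputable section

namespace Fermat.Agent.MW

open Height AdmissibleAbsValues NumberField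
open scoped Classical

/-- the absolute height is invariant under scaling -/
theorem mw_bll_ht_smul {ι : Type} [Finite ι] (c : mw_K) (hc : c ≠ 0) (v : ι → mw_K) :
    mw_ht (fun i => c * v i) = mw_ht v := by
  set K' : IntermediateField ℚ mw_K := mw_field (fun o : Option ι => o.elim c v) with hK'
  have hcK : c ∈ K' := IntermediateField.subset_adjoin ℚ _ ⟨none, rfl⟩
  have hvK : ∀ i, v i ∈ K' := fun i => IntermediateField.subset_adjoin ℚ _ ⟨some i, rfl⟩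
  have h1 := mw_ah_seamABS K' (fun i => (⟨v i, hvK i⟩ : ↥K'))
  have h2 := mw_ah_seamABS K' (fun i => (⟨c * v i, K'.mul_mem hcK (hvK i)⟩ : ↥K'))
  have e1 : (fun i => (((⟨v i, hvK i⟩ : ↥K') : ↥K') : mw_K)) = v := rfl
  have e2 : (fun i => (((⟨c * v i, K'.mul_mem hcK (hvK i)⟩ : ↥K') : ↥K') : mw_K))
      = fun i => c * v i := rfl
  rw [e1] at h1
  rw [e2] at h2
  rw [← h1, ← h2, mw_htIn, mw_htIn]
  congr 1
  have hc' : (⟨c, hcK⟩ : ↥K') ≠ 0 := fun h => hc (congrArg Subtype.val h)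
  have e3 : (fun i => (⟨c * v i, K'.mul_mem hcK (hvK i)⟩ : ↥K'))
      = (⟨c, hcK⟩ : ↥K') • fun i => (⟨v i, hvK i⟩ : ↥K') := by
    funext i
    rfl
  rw [e3, logHeight_eq_log_mulHeight, logHeight_eq_log_mulHeight,
    mulHeight_smul_eq_mulHeight _ hc']

/-! ### transfer of the local inequalities to `mw_wnorm`, `mw_wabs` -/

section Transfer

variable (K' : IntermediateField ℚ mw_K) (w : AbsoluteValue ↥K' ℝ)

theorem mw_bll_wnorm_eq_nrm {ι : Type} [Fintype ι] (v : ι → mw_K) (hv : ∀ i, v i ∈ K') :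
    mw_wnorm K' w v = mw_bll_nrm w (mw_glob_lift K' v hv) := mw_glob_wnorm_eq K' w v hv

theorem mw_bll_wedge_mem {r : ℕ} {u v : Fin (r + 1) → mw_K} (hu : ∀ i, u i ∈ K')
    (hv : ∀ i, v i ∈ K') (p : Fin (r + 1) × Fin (r + 1)) : mw_wedge u v p ∈ K' :=
  K'.sub_mem (K'.mul_mem (hu _) (hv _)) (K'.mul_mem (hu _) (hv _))

theorem mw_bll_lift_wedge {r : ℕ} {u v : Fin (r + 1) → mw_K} (hu : ∀ i, u i ∈ K')
    (hv : ∀ i, v i ∈ K') :
    mw_glob_lift K' (mw_wedge u v) (mw_bll_wedge_mem K' hu hv)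
      = mw_bll_wedge (mw_glob_lift K' u hu) (mw_glob_lift K' v hv) := by
  funext p
  apply Subtype.ext
  rfl

theorem mw_bll_dot_mem {s : ℕ} {c u : Fin (s + 1) → mw_K} (hc : ∀ i, c i ∈ K')
    (hu : ∀ i, u i ∈ K') : mw_dot c u ∈ K' :=
  K'.sum_mem fun i _ => K'.mul_mem (hc i) (hu i)

/-- `|⟨c, u⟩|_w ≤ κ ‖c‖_w ‖u‖_w`, `κ = s + 1` in general, `κ = 1` at a nonarchimedean `w` -/
theorem mw_bll_wabs_dot_le {s : ℕ} {c u : Fin (s + 1) → mw_K} (hc : ∀ i, c i ∈ K')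
    (hu : ∀ i, u i ∈ K') :
    mw_wabs K' w (mw_dot c u) ≤ ((s : ℝ) + 1) * (mw_wnorm K' w c * mw_wnorm K' w u) ∧
      (IsNonarchimedean w → mw_wabs K' w (mw_dot c u) ≤ mw_wnorm K' w c * mw_wnorm K' w u) := by
  have e : mw_wabs K' w (mw_dot c u)
      = w (∑ i, mw_glob_lift K' c hc i * mw_glob_lift K' u hu i) := by
    rw [mw_glob_wabs_eq K' w (mw_bll_dot_mem K' hc hu)]
    congr 1
    apply Subtype.ext
    simp [mw_dot, mw_glob_lift]
  rw [e, mw_bll_wnorm_eq_nrm K' w c hc, mw_bll_wnorm_eq_nrm K' w u hu]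
  refine ⟨?_, fun hna => mw_bll_dot_le_nonarch w hna _ _⟩
  have := mw_bll_dot_le w (mw_glob_lift K' c hc) (mw_glob_lift K' u hu)
  simpa using this

/-- `‖u ∧ v‖_w ≤ κ ‖u‖_w ‖v‖_w`, `κ = 2` in general, `κ = 1` at a nonarchimedean `w` -/
theorem mw_bll_wnorm_wedge_le {r : ℕ} {u v : Fin (r + 1) → mw_K} (hu : ∀ i, u i ∈ K')
    (hv : ∀ i, v i ∈ K') :
    mw_wnorm K' w (mw_wedge u v) ≤ 2 * (mw_wnorm K' w u * mw_wnorm K' w v) ∧
      (IsNonarchimedean w →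
        mw_wnorm K' w (mw_wedge u v) ≤ mw_wnorm K' w u * mw_wnorm K' w v) := by
  rw [mw_bll_wnorm_eq_nrm K' w _ (mw_bll_wedge_mem K' hu hv), mw_bll_lift_wedge K' hu hv,
    mw_bll_wnorm_eq_nrm K' w u hu, mw_bll_wnorm_eq_nrm K' w v hv]
  exact ⟨mw_bll_wedge_le w _ _, fun hna => mw_bll_wedge_le_nonarch w hna _ _⟩

theorem mw_bll_wnorm_wedge_swap {r : ℕ} {u v : Fin (r + 1) → mw_K} (hu : ∀ i, u i ∈ K')
    (hv : ∀ i, v i ∈ K') :
    mw_wnorm K' w (mw_wedge u v) = mw_wnorm K' w (mw_wedge v u) := by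
  rw [mw_bll_wnorm_eq_nrm K' w _ (mw_bll_wedge_mem K' hu hv), mw_bll_lift_wedge K' hu hv,
    mw_bll_wnorm_eq_nrm K' w _ (mw_bll_wedge_mem K' hv hu), mw_bll_lift_wedge K' hv hu]
  exact mw_bll_wedge_swap w _ _

/-- **[TRI]** in terms of `mw_wnorm` -/
theorem mw_bll_wnorm_tri {r : ℕ} {u v z : Fin (r + 1) → mw_K} (hu : ∀ i, u i ∈ K')
    (hv : ∀ i, v i ∈ K') (hz : ∀ i, z i ∈ K') :
    mw_wnorm K' w z * mw_wnorm K' w (mw_wedge u v)
        ≤ 2 * (mw_wnorm K' w u * mw_wnorm K' w (mw_wedge z v))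
          + mw_wnorm K' w v * mw_wnorm K' w (mw_wedge u z) ∧
      (IsNonarchimedean w →
        mw_wnorm K' w z * mw_wnorm K' w (mw_wedge u v)
          ≤ max (mw_wnorm K' w u * mw_wnorm K' w (mw_wedge z v))
            (mw_wnorm K' w v * mw_wnorm K' w (mw_wedge u z))) := by
  rw [mw_bll_wnorm_eq_nrm K' w _ (mw_bll_wedge_mem K' hu hv), mw_bll_lift_wedge K' hu hv,
    mw_bll_wnorm_eq_nrm K' w _ (mw_bll_wedge_mem K' hz hv), mw_bll_lift_wedge K' hz hv,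
    mw_bll_wnorm_eq_nrm K' w _ (mw_bll_wedge_mem K' hu hz), mw_bll_lift_wedge K' hu hz,
    mw_bll_wnorm_eq_nrm K' w u hu, mw_bll_wnorm_eq_nrm K' w v hv, mw_bll_wnorm_eq_nrm K' w z hz]
  exact ⟨mw_bll_tri w _ _ _, fun hna => mw_bll_tri_nonarch w hna _ _ _⟩

theorem mw_bll_wnorm_pos {ι : Type} [Fintype ι] {v : ι → mw_K} (hv : ∀ i, v i ∈ K')
    (h0 : v ≠ 0) : 0 < mw_wnorm K' w v := by
  rw [mw_bll_wnorm_eq_nrm K' w v hv]
  exact mw_bll_nrm_pos w (mw_glob_lift_ne_zero K' hv h0)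

end Transfer

/-! ### `log δ_w` as a bundled local function -/

section Delta

variable (K' : IntermediateField ℚ mw_K) [NumberField ↥K'] {r : ℕ}

/-- `w ↦ log δ_w(u, v)` -/
def mw_bll_ld (u v : Fin (r + 1) → mw_K) (hu : ∀ i, u i ∈ K') (hv : ∀ i, v i ∈ K')
    (hu0 : u ≠ 0) (hv0 : v ≠ 0) (huv : mw_wedge u v ≠ 0) : ↥(mw_glob_LF ↥K') :=
  mw_glob_lw K' (mw_wedge u v) (mw_bll_wedge_mem K' hu hv) huv - mw_glob_lw K' u hu hu0
    - mw_glob_lw K' v hv hv0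

theorem mw_bll_ld_apply (u v : Fin (r + 1) → mw_K) (hu : ∀ i, u i ∈ K') (hv : ∀ i, v i ∈ K')
    (hu0 : u ≠ 0) (hv0 : v ≠ 0) (huv : mw_wedge u v ≠ 0) (w : AbsoluteValue ↥K' ℝ) :
    (mw_bll_ld K' u v hu hv hu0 hv0 huv).1 w = Real.log (mw_delta K' w u v) := by
  have h1 := mw_bll_wnorm_pos K' w (mw_bll_wedge_mem K' hu hv) huv
  have h2 := mw_bll_wnorm_pos K' w hu hu0
  have h3 := mw_bll_wnorm_pos K' w hv hv0
  rw [mw_delta, Real.log_div h1.ne' (mul_pos h2 h3).ne', Real.log_mul h2.ne' h3.ne', mw_bll_ld]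
  simp only [Submodule.coe_sub, Pi.sub_apply, mw_glob_lw_apply]
  ring

theorem mw_bll_tot_ld (u v : Fin (r + 1) → mw_K) (hu : ∀ i, u i ∈ K') (hv : ∀ i, v i ∈ K')
    (hu0 : u ≠ 0) (hv0 : v ≠ 0) (huv : mw_wedge u v ≠ 0) :
    mw_glob_tot ↥K' (mw_bll_ld K' u v hu hv hu0 hv0 huv)
      = (Module.finrank ℚ ↥K' : ℝ) * (mw_ht (mw_wedge u v) - mw_ht u - mw_ht v) := by
  rw [mw_bll_ld, map_sub, map_sub, mw_glob_tot_lw, mw_glob_tot_lw, mw_glob_tot_lw]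
  ring

end Delta

end Fermat.Agent.MW
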