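/-
Project MW (S17), leaf [BL↓] (helper24), part 3: the inequalities at ONE place `w` of `K'`, in
logarithmic form with the archimedean constants `mw_glob_archc c w` (`= c` if `w` is archimedean,
`0` if `w` is nonarchimedean), and the combinatorial/real-arithmetic core of the argument.
Prefix `mw_bll_`.
-/
import Fermat.Agent.MW.Global.BLlow.Ht

set_option autoImplicit false
set_option linter.unusedSectionVars false

noncomputable section

namespace Fermat.Agent.MW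

open scoped Classical

section OnePlace

variable (K' : IntermediateField ℚ mw_K) [NumberField ↥K'] (w : AbsoluteValue ↥K' ℝ)

theorem mw_bll_archc_nonneg {c : ℝ} (hc : 0 ≤ c) : 0 ≤ mw_glob_archc (K := ↥K') c w := by
  rw [mw_glob_archc]
  split_ifs
  · exact le_rfl
  · exact hc

/-- `log δ_w(u, v) ≤ log 2` (`≤ 0` at a nonarchimedean place) -/
theorem mw_bll_log_delta_le {r : ℕ} {u v : Fin (r + 1) → mw_K} (hu : ∀ i, u i ∈ K')
    (hv : ∀ i, v i ∈ K') (hu0 : u ≠ 0) (hv0 : v ≠ 0) (huv : mw_wedge u v ≠ 0) :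
    Real.log (mw_delta K' w u v) ≤ mw_glob_archc (K := ↥K') (Real.log 2) w := by
  have h1 := mw_bll_wnorm_pos K' w (mw_bll_wedge_mem K' hu hv) huv
  have h2 := mw_bll_wnorm_pos K' w hu hu0
  have h3 := mw_bll_wnorm_pos K' w hv hv0
  have hδ : 0 < mw_delta K' w u v := div_pos h1 (mul_pos h2 h3)
  obtain ⟨hg, hn⟩ := mw_bll_wnorm_wedge_le K' w hu hv
  rw [mw_glob_archc]
  split_ifs with hna
  · rw [← Real.log_one]
    refine Real.log_le_log hδ ?_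
    rw [mw_delta, div_le_one (mul_pos h2 h3)]
    exact hn hna
  · refine Real.log_le_log hδ ?_
    rw [mw_delta, div_le_iff₀ (mul_pos h2 h3)]
    exact hg

/-- **[TRI]** in logarithmic form -/
theorem mw_bll_log_tri {r : ℕ} {u v z : Fin (r + 1) → mw_K} (hu : ∀ i, u i ∈ K')
    (hv : ∀ i, v i ∈ K') (hz : ∀ i, z i ∈ K') (hu0 : u ≠ 0) (hv0 : v ≠ 0) (hz0 : z ≠ 0)
    (huv : mw_wedge u v ≠ 0) (hzv : mw_wedge z v ≠ 0) (huz : mw_wedge u z ≠ 0) :
    Real.log (mw_delta K' w u v) ≤ mw_glob_archc (K := ↥K') (Real.log 3) w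
      + max (Real.log (mw_delta K' w z v)) (Real.log (mw_delta K' w u z)) := by
  have huv' := mw_bll_wnorm_pos K' w (mw_bll_wedge_mem K' hu hv) huv
  have hzv' := mw_bll_wnorm_pos K' w (mw_bll_wedge_mem K' hz hv) hzv
  have huz' := mw_bll_wnorm_pos K' w (mw_bll_wedge_mem K' hu hz) huz
  have hu' := mw_bll_wnorm_pos K' w hu hu0
  have hv' := mw_bll_wnorm_pos K' w hv hv0
  have hz' := mw_bll_wnorm_pos K' w hz hz0
  have hδuv : 0 < mw_delta K' w u v := div_pos huv' (mul_pos hu' hv')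
  have hδzv : 0 < mw_delta K' w z v := div_pos hzv' (mul_pos hz' hv')
  have hδuz : 0 < mw_delta K' w u z := div_pos huz' (mul_pos hu' hz')
  obtain ⟨hg, hn⟩ := mw_bll_wnorm_tri K' w hu hv hz
  -- `δ(u,v) ≤ κ · max (δ(z,v), δ(u,z))`
  have key : ∀ κ : ℝ, 0 < κ →
      mw_wnorm K' w z * mw_wnorm K' w (mw_wedge u v)
        ≤ κ * max (mw_wnorm K' w u * mw_wnorm K' w (mw_wedge z v))
          (mw_wnorm K' w v * mw_wnorm K' w (mw_wedge u z)) →
      Real.log (mw_delta K' w u v)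
        ≤ Real.log κ + max (Real.log (mw_delta K' w z v)) (Real.log (mw_delta K' w u z)) := by
    intro κ hκ hle
    have hmax : mw_delta K' w u v
        ≤ κ * max (mw_delta K' w z v) (mw_delta K' w u z) := by
      have e1 : mw_delta K' w z v = (mw_wnorm K' w u * mw_wnorm K' w (mw_wedge z v))
          / (mw_wnorm K' w u * mw_wnorm K' w v * mw_wnorm K' w z) := by
        rw [mw_delta]; field_simp
      have e2 : mw_delta K' w u z = (mw_wnorm K' w v * mw_wnorm K' w (mw_wedge u z))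
          / (mw_wnorm K' w u * mw_wnorm K' w v * mw_wnorm K' w z) := by
        rw [mw_delta]; field_simp
      have e3 : mw_delta K' w u v = (mw_wnorm K' w z * mw_wnorm K' w (mw_wedge u v))
          / (mw_wnorm K' w u * mw_wnorm K' w v * mw_wnorm K' w z) := by
        rw [mw_delta]; field_simp
      have hden : 0 < mw_wnorm K' w u * mw_wnorm K' w v * mw_wnorm K' w z :=
        mul_pos (mul_pos hu' hv') hz'
      rw [e1, e2, e3, max_div_div_right hden.le, ← mul_div_assoc]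
      exact div_le_div_of_nonneg_right hle hden.le
    have hmpos : 0 < max (mw_delta K' w z v) (mw_delta K' w u z) := lt_max_of_lt_left hδzv
    calc Real.log (mw_delta K' w u v)
        ≤ Real.log (κ * max (mw_delta K' w z v) (mw_delta K' w u z)) :=
          Real.log_le_log hδuv hmax
      _ = Real.log κ + Real.log (max (mw_delta K' w z v) (mw_delta K' w u z)) :=
          Real.log_mul hκ.ne' hmpos.ne'
      _ = Real.log κ + max (Real.log (mw_delta K' w z v)) (Real.log (mw_delta K' w u z)) := by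
          congr 1
          exact (Real.strictMonoOn_log.monotoneOn.map_max (Set.mem_Ioi.mpr hδzv)
            (Set.mem_Ioi.mpr hδuz))
  rw [mw_glob_archc]
  split_ifs with hna
  · have := key 1 one_pos (by rw [one_mul]; exact hn hna)
    rwa [Real.log_one] at this
  · refine key 3 (by norm_num) ?_
    have hA : mw_wnorm K' w u * mw_wnorm K' w (mw_wedge z v)
        ≤ max (mw_wnorm K' w u * mw_wnorm K' w (mw_wedge z v))
          (mw_wnorm K' w v * mw_wnorm K' w (mw_wedge u z)) := le_max_left _ _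
    have hB : mw_wnorm K' w v * mw_wnorm K' w (mw_wedge u z)
        ≤ max (mw_wnorm K' w u * mw_wnorm K' w (mw_wedge z v))
          (mw_wnorm K' w v * mw_wnorm K' w (mw_wedge u z)) := le_max_right _ _
    linarith

/-- the linear form bound in logarithmic form -/
theorem mw_bll_log_dot {s : ℕ} {c u : Fin (s + 1) → mw_K} (hc : ∀ i, c i ∈ K')
    (hu : ∀ i, u i ∈ K') (hc0 : c ≠ 0) (hu0 : u ≠ 0) (hcu : mw_dot c u ≠ 0) :
    Real.log (mw_wabs K' w (mw_dot c u))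
      ≤ mw_glob_archc (K := ↥K') (Real.log ((s : ℝ) + 1)) w
        + Real.log (mw_wnorm K' w c) + Real.log (mw_wnorm K' w u) := by
  have hc' := mw_bll_wnorm_pos K' w hc hc0
  have hu' := mw_bll_wnorm_pos K' w hu hu0
  have hpos : 0 < mw_wabs K' w (mw_dot c u) := by
    rw [mw_glob_wabs_eq K' w (mw_bll_dot_mem K' hc hu)]
    exact w.pos fun h => hcu (congrArg Subtype.val h)
  obtain ⟨hg, hn⟩ := mw_bll_wabs_dot_le K' w hc hu
  have hs : (0 : ℝ) < (s : ℝ) + 1 := by positivity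
  rw [mw_glob_archc]
  split_ifs with hna
  · rw [zero_add, ← Real.log_mul hc'.ne' hu'.ne']
    exact Real.log_le_log hpos (hn hna)
  · rw [add_assoc, ← Real.log_mul hc'.ne' hu'.ne', ← Real.log_mul hs.ne' (mul_pos hc' hu').ne']
    exact Real.log_le_log hpos hg

end OnePlace

/-! ### the combinatorial core: one of the two sections has all its zeros far from `P` -/

theorem mw_bll_exists_side {ι' : Type} (S₁ S₂ : Finset ι') (Δ : ι' → ℝ) (ρ : ι' → ι' → ℝ)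
    (k2 k3 : ℝ) (Z₁ Z₂ : ι' → ℕ) (D : ℕ) (hk2 : 0 ≤ k2) (hk3 : 0 ≤ k3)
    (hρ : ∀ z₁ ∈ S₁, ∀ z₂ ∈ S₂, 0 ≤ ρ z₁ z₂)
    (htri : ∀ z₁ ∈ S₁, ∀ z₂ ∈ S₂, k2 - ρ z₁ z₂ ≤ k3 + max (Δ z₁) (Δ z₂))
    (hD₁ : ∑ z ∈ S₁, Z₁ z ≤ D) (hD₂ : ∑ z ∈ S₂, Z₂ z ≤ D) :
    (-(D : ℝ) * (k3 + ∑ z₁ ∈ S₁, ∑ z₂ ∈ S₂, ρ z₁ z₂) ≤ ∑ z ∈ S₁, (Z₁ z : ℝ) * Δ z) ∨
      (-(D : ℝ) * (k3 + ∑ z₁ ∈ S₁, ∑ z₂ ∈ S₂, ρ z₁ z₂) ≤ ∑ z ∈ S₂, (Z₂ z : ℝ) * Δ z) := by
  set τ : ℝ := k3 + ∑ z₁ ∈ S₁, ∑ z₂ ∈ S₂, ρ z₁ z₂ with hτ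
  have hsum_nonneg : 0 ≤ ∑ z₁ ∈ S₁, ∑ z₂ ∈ S₂, ρ z₁ z₂ :=
    Finset.sum_nonneg fun z₁ h₁ => Finset.sum_nonneg fun z₂ h₂ => hρ z₁ h₁ z₂ h₂
  have hτ0 : 0 ≤ τ := by rw [hτ]; linarith
  have hpair : ∀ z₁ ∈ S₁, ∀ z₂ ∈ S₂, -τ ≤ max (Δ z₁) (Δ z₂) := by
    intro z₁ h₁ z₂ h₂
    have h1 : ρ z₁ z₂ ≤ ∑ z₁ ∈ S₁, ∑ z₂ ∈ S₂, ρ z₁ z₂ := by
      calc ρ z₁ z₂ ≤ ∑ z₂ ∈ S₂, ρ z₁ z₂ :=
            Finset.single_le_sum (f := fun z₂ => ρ z₁ z₂) (fun z hz => hρ z₁ h₁ z hz) h₂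
        _ ≤ ∑ z₁ ∈ S₁, ∑ z₂ ∈ S₂, ρ z₁ z₂ :=
            Finset.single_le_sum (f := fun z₁ => ∑ z₂ ∈ S₂, ρ z₁ z₂)
              (fun z hz => Finset.sum_nonneg fun z₂ h₂ => hρ z hz z₂ h₂) h₁
    have := htri z₁ h₁ z₂ h₂
    rw [hτ]
    linarith
  have hside : ∀ (S : Finset ι') (Z : ι' → ℕ), ∑ z ∈ S, Z z ≤ D → (∀ z ∈ S, -τ ≤ Δ z) →
      -(D : ℝ) * τ ≤ ∑ z ∈ S, (Z z : ℝ) * Δ z := by
    intro S Z hD hall
    have h1 : ∑ z ∈ S, (Z z : ℝ) * (-τ) ≤ ∑ z ∈ S, (Z z : ℝ) * Δ z :=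
      Finset.sum_le_sum fun z hz => mul_le_mul_of_nonneg_left (hall z hz) (Nat.cast_nonneg _)
    rw [← Finset.sum_mul] at h1
    have h2 : (∑ z ∈ S, (Z z : ℝ)) ≤ D := by exact_mod_cast hD
    have h3 : (∑ z ∈ S, (Z z : ℝ)) * τ ≤ (D : ℝ) * τ := mul_le_mul_of_nonneg_right h2 hτ0
    linarith
  by_cases h : ∀ z ∈ S₁, -τ ≤ Δ z
  · exact Or.inl (hside S₁ Z₁ hD₁ h)
  · push Not at h
    obtain ⟨z₁, h₁, hlt⟩ := h
    refine Or.inr (hside S₂ Z₂ hD₂ fun z₂ h₂ => ?_)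
    have := hpair z₁ h₁ z₂ h₂
    rcases le_max_iff.mp this with h' | h'
    · exact absurd h' (not_le.mpr hlt)
    · exact h'

end Fermat.Agent.MW
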