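/-
Project MW (S17), leaf [BL↓] (helper24), part 5: auxiliary lemmas for the assembly: splitting the
finite sum of `[KLμ]` along `Z^y = 𝔅 + Z'`, the vector `(1, c)`, and the arithmetic at one place.
Prefix `mw_bll_`.
-/
import Fermat.Agent.MW.Global.BLlow.Place
import Fermat.Agent.MW.Core.LocalAux

set_option autoImplicit false
set_option linter.unusedSectionVars false

noncomputable section

namespace Fermat.Agent.MW

open scoped Classical

/-- the finite sum of `[KLμ]` (at a point `P` off the supports) along `Z = Z' + B` -/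
theorem mw_bll_finsum_split {ι' : Type} (P : ι') (Z Z' B : ι' → ℤ) (hZ : ∀ z, Z z = Z' z + B z)
    (SB S' : Finset ι') (hB : ∀ z, B z ≠ 0 → z ∈ SB) (hZ' : ∀ z, Z' z ≠ 0 → z ∈ S')
    (hPB : P ∉ SB) (hP' : P ∉ S') (Δ : ι' → ℝ) :
    ∑ᶠ z, (if z = P then (0 : ℝ) else (Z z : ℝ) * Δ z)
      = ∑ z ∈ SB, (B z : ℝ) * Δ z + ∑ z ∈ S', (Z' z : ℝ) * Δ z := by
  have hsupp : (Function.support fun z => if z = P then (0 : ℝ) else (Z z : ℝ) * Δ z)
      ⊆ ((SB ∪ S' : Finset ι') : Set ι') := by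
    intro z hz
    simp only [Function.mem_support] at hz
    by_contra hnot
    apply hz
    simp only [Finset.coe_union, Set.mem_union, Finset.mem_coe, not_or] at hnot
    have h1 : B z = 0 := by
      by_contra h
      exact hnot.1 (hB z h)
    have h2 : Z' z = 0 := by
      by_contra h
      exact hnot.2 (hZ' z h)
    rw [hZ z, h1, h2]
    simp
  rw [finsum_eq_sum_of_support_subset _ hsupp]
  have e : ∀ z ∈ SB ∪ S', (if z = P then (0 : ℝ) else (Z z : ℝ) * Δ z)
      = (B z : ℝ) * Δ z + (Z' z : ℝ) * Δ z := by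
    intro z hz
    have hzP : z ≠ P := by
      rintro rfl
      rcases Finset.mem_union.mp hz with h | h
      · exact hPB h
      · exact hP' h
    rw [if_neg hzP, hZ z]
    push_cast
    ring
  rw [Finset.sum_congr rfl e, Finset.sum_add_distrib]
  congr 1
  · refine (Finset.sum_subset Finset.subset_union_left fun z _ hz => ?_).symm
    have : B z = 0 := by
      by_contra h
      exact hz (hB z h)
    rw [this]; simp
  · refine (Finset.sum_subset Finset.subset_union_right fun z _ hz => ?_).symm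
    have : Z' z = 0 := by
      by_contra h
      exact hz (hZ' z h)
    rw [this]; simp

section One

variable (K' : IntermediateField ℚ mw_K) (w : AbsoluteValue ↥K' ℝ)

/-- the vector `(1, c)` -/
def mw_bll_one {ι : Type} (c : ι → mw_K) : Option ι → mw_K := fun o => o.elim 1 c

theorem mw_bll_one_ne_zero {ι : Type} (c : ι → mw_K) : mw_bll_one c ≠ 0 := by
  intro h
  have := congrFun h none
  simp [mw_bll_one] at this

theorem mw_bll_one_mem {ι : Type} {c : ι → mw_K} (hc : ∀ i, c i ∈ K') (o : Option ι) :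
    mw_bll_one c o ∈ K' := by
  cases o with
  | none => exact K'.one_mem
  | some i => exact hc i

theorem mw_bll_one_le {ι : Type} [Fintype ι] (c : ι → mw_K) :
    1 ≤ mw_wnorm K' w (mw_bll_one c) := by
  have h := mw_la_le_wnorm K' w (mw_bll_one c) none
  have e : mw_wabs K' w (mw_bll_one c none) = 1 := by
    show mw_wabs K' w 1 = 1
    rw [mw_la_wabs_of_mem K' w K'.one_mem]
    exact w.map_one
  rwa [e] at h

theorem mw_bll_le_one {ι : Type} [Fintype ι] (c : ι → mw_K) :
    mw_wnorm K' w c ≤ mw_wnorm K' w (mw_bll_one c) := by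
  rcases isEmpty_or_nonempty ι with hι | hι
  · rw [mw_wnorm, Real.iSup_of_isEmpty]
    exact mw_la_wnorm_nonneg K' w _
  · exact ciSup_le fun i => mw_la_le_wnorm K' w (mw_bll_one c) (some i)

/-- a vector with a coordinate `1` has norm `≥ 1` -/
theorem mw_bll_one_le_of_coord {ι : Type} [Fintype ι] {c : ι → mw_K} {j : ι} (hj : c j = 1) :
    1 ≤ mw_wnorm K' w c := by
  have h := mw_la_le_wnorm K' w c j
  have e : mw_wabs K' w (c j) = 1 := by
    rw [hj, mw_la_wabs_of_mem K' w K'.one_mem]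
    exact w.map_one
  rwa [e] at h

end One

/-- the arithmetic at one place -/
theorem mw_bll_place_arith {LU LY Bs bnd k1 T1 T2 S1 S2 C1 C2 Ldot1 Ldot2 Dτ Tc1 Tc2 : ℝ}
    (hKL1 : Bs + S1 - bnd ≤ Ldot1 - C1 - LY) (hKL2 : Bs + S2 - bnd ≤ Ldot2 - C2 - LY)
    (hC1 : 0 ≤ C1) (hC2 : 0 ≤ C2)
    (hdot1 : Ldot1 ≤ k1 + Tc1 + LU) (hdot2 : Ldot2 ≤ k1 + Tc2 + LU)
    (hT1 : Tc1 ≤ T1) (hT2 : Tc2 ≤ T2) (hT1' : 0 ≤ T1) (hT2' : 0 ≤ T2)
    (hside : -Dτ ≤ S1 ∨ -Dτ ≤ S2) :
    LY + Bs - (bnd + k1 + T1 + T2 + Dτ) ≤ LU := by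
  rcases hside with h | h <;> linarith

end Fermat.Agent.MW
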