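/-
Project MW (S17), leaf [BL↓] (helper24), part 6: the lower half of `[KLμ]` (`μ = 0`) for ONE
section `c` of the subsystem `ψ`, at ONE place `w` of `K'`, at a point `P` off the base divisor `𝔅`
and off the moving zeros of `c`:
`∑_{z ∈ 𝔅} 𝔅(z) log δ_w(P,z) + ∑_{z ∈ Z'_c} Z'_c(z) log δ_w(P,z) - bnd
    ≤ log |⟨c, u⟩|_w - log ‖cc‖_w - log ‖y(P)‖_w`, `u = M · y(P)`, `cc = Mᵗ c`.
Prefix `mw_bll_`.
-/
import Fermat.Agent.MW.Global.BLlow.Tools
import Fermat.Agent.MW.Global.BLlow.Sections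

set_option autoImplicit false
set_option linter.unusedSectionVars false

noncomputable section

namespace Fermat.Agent.MW

open AlgebraicCurve ModularCurve
open scoped Classical

variable {N : ℕ} [NeZero N] {r s m : ℕ}

/-- the vector `u = M · v` -/
def mw_bll_u (M : Fin (m + 1) → Fin (s + 1) → mw_K) (v : Fin (s + 1) → mw_K) :
    Fin (m + 1) → mw_K := fun b => mw_dot (M b) v

theorem mw_bll_dot_tr_u (M : Fin (m + 1) → Fin (s + 1) → mw_K) (c : Fin (m + 1) → mw_K)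
    (v : Fin (s + 1) → mw_K) : mw_dot (mw_bll_tr M c) v = mw_dot c (mw_bll_u M v) :=
  mw_bll_dot_tr M c v

theorem mw_bll_delta_symm (K' : IntermediateField ℚ mw_K) (w : AbsoluteValue ↥K' ℝ)
    {u v : Fin (r + 1) → mw_K} (hu : ∀ i, u i ∈ K') (hv : ∀ i, v i ∈ K') :
    mw_delta K' w u v = mw_delta K' w v u := by
  rw [mw_delta, mw_delta, mw_bll_wnorm_wedge_swap K' w hu hv, mul_comm]

/-- the hypothesis: the conclusion of `[KLμ]` at the place `w` of `K'` with the error `bnd` -/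
def mw_bll_KLat (N : ℕ) [NeZero N] {r s : ℕ} (x : Fin (r + 1) → mw_F N)
    (y : Fin (s + 1) → mw_F N) (K' : IntermediateField ℚ mw_K) (w : AbsoluteValue ↥K' ℝ)
    (bnd : ℝ) : Prop :=
  ∀ (cc : Fin (s + 1) → mw_K) (P : mw_X N) (π : mw_F N) (μ : ℕ), cc ≠ 0 →
    mw_zeroMult y cc P = (μ : ℤ) → (1 ≤ μ → P.ord π = 1) →
    (∀ b, cc b ∈ K') → (∀ b, mw_vec x P b ∈ K') → (∀ b, mw_vec y P b ∈ K') →
    (∀ z : mw_X N, mw_zeroMult y cc z ≠ 0 → ∀ b, mw_vec x z b ∈ K') →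
    (1 ≤ μ → ∀ b, mw_tanAt N x P π b ∈ K') → mw_lcAt N y cc P π μ ∈ K' →
    |Real.log (mw_wabs K' w (mw_lcAt N y cc P π μ) /
          (mw_wnorm K' w cc * mw_wnorm K' w (mw_vec y P)))
      - ((μ : ℝ) * Real.log (mw_kappa N K' w x P π)
          + ∑ᶠ z : mw_X N, if z = P then (0 : ℝ) else
              (mw_zeroMult y cc z : ℝ) *
                Real.log (mw_delta K' w (mw_vec x P) (mw_vec x z)))| ≤ bnd

/-- the value at `P` of the section `cc = Mᵗ c` of `y` is `⟨c, u⟩ ≠ 0` off the zeros -/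
theorem mw_bll_dot_ne_zero {Pinf : mw_X N} {a : ℕ} {y : Fin (s + 1) → mw_F N}
    (hy : LinearIndependent mw_K y) {ψ : Fin (m + 1) → mw_F N} (hψ : LinearIndependent mw_K ψ)
    {M : Fin (m + 1) → Fin (s + 1) → mw_K} (hM : ∀ b, ψ b = mw_sec y (M b))
    (hpiv : ∀ z : mw_X N, z.ord (y (mw_piv y z)) = -(Finsupp.single Pinf (a : ℤ) : mw_Div N) z)
    {𝔅 : mw_Div N}
    (h𝔅 : ∀ z, 𝔅 z = z.ord (ψ (mw_piv ψ z)) + (Finsupp.single Pinf (a : ℤ) : mw_Div N) z)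
    {c : Fin (m + 1) → mw_K} (hc : c ≠ 0) {P : mw_X N} (hP𝔅 : 𝔅 P = 0)
    (hPc : mw_zeroMult ψ c P = 0) :
    mw_zeroMult y (mw_bll_tr M c) P = 0 ∧ mw_dot c (mw_bll_u M (mw_vec y P)) ≠ 0 := by
  have hZ := mw_bll_zeroMult_tr hy hψ hM hpiv h𝔅 hc P
  have h0 : mw_zeroMult y (mw_bll_tr M c) P = 0 := by rw [hZ, hP𝔅, hPc, add_zero]
  refine ⟨h0, ?_⟩
  have hsec : mw_sec y (mw_bll_tr M c) ≠ 0 :=
    mw_v_sec_ne_zero hy (mw_bll_tr_ne_zero hψ hM hc)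
  rw [← mw_bll_dot_tr_u]
  exact (mw_v_zeroMult_eq_zero_iff y (mw_v_exists_ne_zero hy) P hsec).mp h0

/-- **the lower half of `[KLμ]` for one section of the subsystem** -/
theorem mw_bll_one_section {x : Fin (r + 1) → mw_F N} {Pinf : mw_X N} {a : ℕ}
    {y : Fin (s + 1) → mw_F N}
    (hy : LinearIndependent mw_K y) {ψ : Fin (m + 1) → mw_F N} (hψ : LinearIndependent mw_K ψ)
    {M : Fin (m + 1) → Fin (s + 1) → mw_K} (hM : ∀ b, ψ b = mw_sec y (M b))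
    (hpiv : ∀ z : mw_X N, z.ord (y (mw_piv y z)) = -(Finsupp.single Pinf (a : ℤ) : mw_Div N) z)
    {𝔅 : mw_Div N}
    (h𝔅 : ∀ z, 𝔅 z = z.ord (ψ (mw_piv ψ z)) + (Finsupp.single Pinf (a : ℤ) : mw_Div N) z)
    {c : Fin (m + 1) → mw_K} (hc : c ≠ 0) {P : mw_X N} (hP𝔅 : P ∉ 𝔅.support)
    (S' : Finset (mw_X N)) (hS' : ∀ z, mw_zeroMult ψ c z ≠ 0 → z ∈ S') (hPS' : P ∉ S')
    (K' : IntermediateField ℚ mw_K) (w : AbsoluteValue ↥K' ℝ) (bnd : ℝ)
    (hKL : mw_bll_KLat N x y K' w bnd)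
    (hcc : ∀ b, mw_bll_tr M c b ∈ K') (hxP : ∀ b, mw_vec x P b ∈ K')
    (hyP : ∀ b, mw_vec y P b ∈ K')
    (hxz : ∀ z, z ∈ 𝔅.support ∨ z ∈ S' → ∀ b, mw_vec x z b ∈ K') :
    ∑ z ∈ 𝔅.support, (𝔅 z : ℝ) * Real.log (mw_delta K' w (mw_vec x P) (mw_vec x z))
        + ∑ z ∈ S', (mw_zeroMult ψ c z : ℝ) *
            Real.log (mw_delta K' w (mw_vec x P) (mw_vec x z)) - bnd
      ≤ Real.log (mw_wabs K' w (mw_dot c (mw_bll_u M (mw_vec y P))))
          - Real.log (mw_wnorm K' w (mw_bll_tr M c)) - Real.log (mw_wnorm K' w (mw_vec y P)) := by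
  have hy0 := mw_v_exists_ne_zero hy
  have hP𝔅' : 𝔅 P = 0 := by
    by_contra h
    exact hP𝔅 (Finsupp.mem_support_iff.mpr h)
  have hPc : mw_zeroMult ψ c P = 0 := by
    by_contra h
    exact hPS' (hS' P h)
  obtain ⟨hZP, hdot⟩ := mw_bll_dot_ne_zero hy hψ hM hpiv h𝔅 hc hP𝔅' hPc
  have hcc0 : mw_bll_tr M c ≠ 0 := mw_bll_tr_ne_zero hψ hM hc
  have hZ := mw_bll_zeroMult_tr hy hψ hM hpiv h𝔅 hc
  -- the leading coefficient for `μ = 0`
  have hlc : mw_lcAt N y (mw_bll_tr M c) P 1 0 = mw_dot c (mw_bll_u M (mw_vec y P)) := by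
    rw [mw_lcAt, pow_zero, div_one, ← mw_v_dot y hy0 P, mw_bll_dot_tr_u]
  have hlcmem : mw_lcAt N y (mw_bll_tr M c) P 1 0 ∈ K' := by
    rw [hlc, ← mw_bll_dot_tr_u]
    exact mw_bll_dot_mem K' hcc hyP
  have hxz' : ∀ z : mw_X N, mw_zeroMult y (mw_bll_tr M c) z ≠ 0 → ∀ b, mw_vec x z b ∈ K' := by
    intro z hz
    refine hxz z ?_
    by_contra hnot
    push Not at hnot
    apply hz
    have h1 : 𝔅 z = 0 := by
      by_contra h
      exact hnot.1 (Finsupp.mem_support_iff.mpr h)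
    have h2 : mw_zeroMult ψ c z = 0 := by
      by_contra h
      exact hnot.2 (hS' z h)
    rw [hZ z, h1, h2, add_zero]
  have key := hKL (mw_bll_tr M c) P 1 0 hcc0 (by rw [hZP]; rfl)
    (fun h => absurd h (by norm_num)) hcc hxP hyP hxz' (fun h => absurd h (by norm_num)) hlcmem
  rw [hlc] at key
  -- the finite sum
  have hsplit := mw_bll_finsum_split P (fun z => mw_zeroMult y (mw_bll_tr M c) z)
    (fun z => mw_zeroMult ψ c z) (fun z => 𝔅 z) hZ 𝔅.support S'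
    (fun z hz => Finsupp.mem_support_iff.mpr hz) hS' hP𝔅 hPS'
    (fun z => Real.log (mw_delta K' w (mw_vec x P) (mw_vec x z)))
  rw [hsplit] at key
  -- the logarithm of the quotient
  have hpos : 0 < mw_wabs K' w (mw_dot c (mw_bll_u M (mw_vec y P))) := by
    have hmem : mw_dot c (mw_bll_u M (mw_vec y P)) ∈ K' := by
      rw [← mw_bll_dot_tr_u]
      exact mw_bll_dot_mem K' hcc hyP
    rw [mw_glob_wabs_eq K' w hmem]
    exact w.pos fun h => hdot (congrArg Subtype.val h)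
  have hccpos := mw_bll_wnorm_pos K' w hcc hcc0
  have hyPpos := mw_bll_wnorm_pos K' w hyP (mw_v_vec_ne_zero y hy0 P)
  rw [Real.log_div hpos.ne' (mul_pos hccpos hyPpos).ne', Real.log_mul hccpos.ne' hyPpos.ne']
    at key
  have := (abs_le.mp key).1
  simp only [Nat.cast_zero, zero_mul, zero_add] at this
  linarith

end Fermat.Agent.MW
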