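/-
Project MW (S17), leaf [BL↓] (helper24), part 7: the inequality at ONE place `w` of `K'` from TWO
sections `c₁`, `c₂` of the subsystem `ψ` with disjoint moving zeros: by the triangle inequality for
the chordal distance, one of the two has all its moving zeros far from `P`:
`log ‖y(P)‖_w + ∑_{z ∈ 𝔅} 𝔅(z) log δ_w(P,z)
    - (bnd + [log (m+1)] + log ‖(1,c₁)‖_w + log ‖(1,c₂)‖_w + D ([log 3] + ∑∑ ([log 2] - log δ_w(z₁,z₂))))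
  ≤ log ‖u‖_w`, `u = M · y(P)`.
Prefix `mw_bll_`.
-/
import Fermat.Agent.MW.Global.BLlow.OneSection

set_option autoImplicit false
set_option linter.unusedSectionVars false

noncomputable section

namespace Fermat.Agent.MW

open AlgebraicCurve ModularCurve
open scoped Classical

variable {N : ℕ} [NeZero N] {r s m : ℕ}

theorem mw_bll_two_sections {x : Fin (r + 1) → mw_F N} (hx : mw_IsRef N x) {Pinf : mw_X N}
    {a : ℕ} {y : Fin (s + 1) → mw_F N}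
    (hy : LinearIndependent mw_K y) {ψ : Fin (m + 1) → mw_F N} (hψ : LinearIndependent mw_K ψ)
    {M : Fin (m + 1) → Fin (s + 1) → mw_K} (hM : ∀ b, ψ b = mw_sec y (M b))
    (hpiv : ∀ z : mw_X N, z.ord (y (mw_piv y z)) = -(Finsupp.single Pinf (a : ℤ) : mw_Div N) z)
    {𝔅 : mw_Div N}
    (h𝔅 : ∀ z, 𝔅 z = z.ord (ψ (mw_piv ψ z)) + (Finsupp.single Pinf (a : ℤ) : mw_Div N) z)
    {c₁ c₂ : Fin (m + 1) → mw_K} (hc₁ : c₁ ≠ 0) (hc₂ : c₂ ≠ 0)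
    (hj₁ : ∃ j, mw_bll_tr M c₁ j = 1) (hj₂ : ∃ j, mw_bll_tr M c₂ j = 1)
    (hdisj : ∀ z : mw_X N, mw_zeroMult ψ c₁ z ≠ 0 → mw_zeroMult ψ c₂ z = 0)
    (S₁ S₂ : Finset (mw_X N)) (hS₁ : ∀ z, z ∈ S₁ ↔ mw_zeroMult ψ c₁ z ≠ 0)
    (hS₂ : ∀ z, z ∈ S₂ ↔ mw_zeroMult ψ c₂ z ≠ 0) (D : ℕ)
    (hD₁ : ∑ z ∈ S₁, (mw_zeroMult ψ c₁ z).toNat ≤ D)
    (hD₂ : ∑ z ∈ S₂, (mw_zeroMult ψ c₂ z).toNat ≤ D)
    {P : mw_X N} (hP𝔅 : P ∉ 𝔅.support) (hP₁ : P ∉ S₁) (hP₂ : P ∉ S₂)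
    (K' : IntermediateField ℚ mw_K) [NumberField ↥K'] (w : AbsoluteValue ↥K' ℝ) (bnd : ℝ)
    (hKL : mw_bll_KLat N x y K' w bnd)
    (hc₁K : ∀ b, c₁ b ∈ K') (hc₂K : ∀ b, c₂ b ∈ K')
    (hcc₁ : ∀ b, mw_bll_tr M c₁ b ∈ K') (hcc₂ : ∀ b, mw_bll_tr M c₂ b ∈ K')
    (hxP : ∀ b, mw_vec x P b ∈ K') (hyP : ∀ b, mw_vec y P b ∈ K')
    (hu : ∀ b, mw_bll_u M (mw_vec y P) b ∈ K') (hu0 : mw_bll_u M (mw_vec y P) ≠ 0)
    (hxz : ∀ z, z ∈ 𝔅.support ∨ z ∈ S₁ ∨ z ∈ S₂ → ∀ b, mw_vec x z b ∈ K') :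
    Real.log (mw_wnorm K' w (mw_vec y P))
        + ∑ z ∈ 𝔅.support, (𝔅 z : ℝ) * Real.log (mw_delta K' w (mw_vec x P) (mw_vec x z))
        - (bnd + mw_glob_archc (K := ↥K') (Real.log ((m : ℝ) + 1)) w
            + Real.log (mw_wnorm K' w (mw_bll_one c₁)) + Real.log (mw_wnorm K' w (mw_bll_one c₂))
            + (D : ℝ) * (mw_glob_archc (K := ↥K') (Real.log 3) w
                + ∑ z₁ ∈ S₁, ∑ z₂ ∈ S₂, (mw_glob_archc (K := ↥K') (Real.log 2) w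
                    - Real.log (mw_delta K' w (mw_vec x z₁) (mw_vec x z₂)))))
      ≤ Real.log (mw_wnorm K' w (mw_bll_u M (mw_vec y P))) := by
  have hli := hx.2.1
  have hx0 := mw_v_exists_ne_zero hli
  have hψ0 := mw_v_exists_ne_zero hψ
  have hy0 := mw_v_exists_ne_zero hy
  have hP𝔅' : 𝔅 P = 0 := by
    by_contra h
    exact hP𝔅 (Finsupp.mem_support_iff.mpr h)
  -- the two applications of the lower half of `[KLμ]`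
  have hKL₁ := mw_bll_one_section hy hψ hM hpiv h𝔅 hc₁ hP𝔅 S₁ (fun z hz => (hS₁ z).mpr hz) hP₁
    K' w bnd hKL hcc₁ hxP hyP (fun z hz => hxz z (hz.imp id Or.inl))
  have hKL₂ := mw_bll_one_section hy hψ hM hpiv h𝔅 hc₂ hP𝔅 S₂ (fun z hz => (hS₂ z).mpr hz) hP₂
    K' w bnd hKL hcc₂ hxP hyP (fun z hz => hxz z (hz.imp id Or.inr))
  -- `‖cc_i‖ ≥ 1`
  obtain ⟨j₁, hj₁⟩ := hj₁
  obtain ⟨j₂, hj₂⟩ := hj₂
  have hC₁ : 0 ≤ Real.log (mw_wnorm K' w (mw_bll_tr M c₁)) :=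
    Real.log_nonneg (mw_bll_one_le_of_coord K' w hj₁)
  have hC₂ : 0 ≤ Real.log (mw_wnorm K' w (mw_bll_tr M c₂)) :=
    Real.log_nonneg (mw_bll_one_le_of_coord K' w hj₂)
  -- the linear forms
  have hdot₁ := mw_bll_log_dot K' w hc₁K hu hc₁ hu0
    (mw_bll_dot_ne_zero hy hψ hM hpiv h𝔅 hc₁ hP𝔅'
      (by by_contra h; exact hP₁ ((hS₁ P).mpr h))).2
  have hdot₂ := mw_bll_log_dot K' w hc₂K hu hc₂ hu0
    (mw_bll_dot_ne_zero hy hψ hM hpiv h𝔅 hc₂ hP𝔅'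
      (by by_contra h; exact hP₂ ((hS₂ P).mpr h))).2
  have hT₁ : Real.log (mw_wnorm K' w c₁) ≤ Real.log (mw_wnorm K' w (mw_bll_one c₁)) :=
    Real.log_le_log (mw_bll_wnorm_pos K' w hc₁K hc₁) (mw_bll_le_one K' w c₁)
  have hT₂ : Real.log (mw_wnorm K' w c₂) ≤ Real.log (mw_wnorm K' w (mw_bll_one c₂)) :=
    Real.log_le_log (mw_bll_wnorm_pos K' w hc₂K hc₂) (mw_bll_le_one K' w c₂)
  have hT₁' : 0 ≤ Real.log (mw_wnorm K' w (mw_bll_one c₁)) :=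
    Real.log_nonneg (mw_bll_one_le K' w c₁)
  have hT₂' : 0 ≤ Real.log (mw_wnorm K' w (mw_bll_one c₂)) :=
    Real.log_nonneg (mw_bll_one_le K' w c₂)
  -- the side
  have hne : ∀ z₁ ∈ S₁, ∀ z₂ ∈ S₂, z₁ ≠ z₂ := by
    intro z₁ h₁ z₂ h₂ h
    subst h
    exact (hS₂ z₁).mp h₂ (hdisj z₁ ((hS₁ z₁).mp h₁))
  have hmem₁ : ∀ z ∈ S₁, ∀ b, mw_vec x z b ∈ K' := fun z hz => hxz z (Or.inr (Or.inl hz))
  have hmem₂ : ∀ z ∈ S₂, ∀ b, mw_vec x z b ∈ K' := fun z hz => hxz z (Or.inr (Or.inr hz))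
  have hside := mw_bll_exists_side S₁ S₂
    (fun z => Real.log (mw_delta K' w (mw_vec x P) (mw_vec x z)))
    (fun z₁ z₂ => mw_glob_archc (K := ↥K') (Real.log 2) w
      - Real.log (mw_delta K' w (mw_vec x z₁) (mw_vec x z₂)))
    (mw_glob_archc (K := ↥K') (Real.log 2) w) (mw_glob_archc (K := ↥K') (Real.log 3) w)
    (fun z => (mw_zeroMult ψ c₁ z).toNat) (fun z => (mw_zeroMult ψ c₂ z).toNat) D
    (mw_bll_archc_nonneg K' w (Real.log_nonneg (by norm_num)))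
    (mw_bll_archc_nonneg K' w (Real.log_nonneg (by norm_num)))
    (fun z₁ h₁ z₂ h₂ => sub_nonneg.mpr
      (mw_bll_log_delta_le K' w (hmem₁ z₁ h₁) (hmem₂ z₂ h₂) (mw_v_vec_ne_zero x hx0 z₁)
        (mw_v_vec_ne_zero x hx0 z₂) (mw_emb_sep x hx z₁ z₂ (hne z₁ h₁ z₂ h₂))))
    (fun z₁ h₁ z₂ h₂ => by
      have hPz₁ : z₁ ≠ P := fun h => hP₁ (h ▸ h₁)
      have hPz₂ : P ≠ z₂ := fun h => hP₂ (h ▸ h₂)
      have htri := mw_bll_log_tri K' w (hmem₁ z₁ h₁) (hmem₂ z₂ h₂) hxP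
        (mw_v_vec_ne_zero x hx0 z₁) (mw_v_vec_ne_zero x hx0 z₂) (mw_v_vec_ne_zero x hx0 P)
        (mw_emb_sep x hx z₁ z₂ (hne z₁ h₁ z₂ h₂)) (mw_emb_sep x hx P z₂ hPz₂)
        (mw_emb_sep x hx z₁ P hPz₁)
      rw [mw_bll_delta_symm K' w (hmem₁ z₁ h₁) hxP, max_comm] at htri
      linarith) hD₁ hD₂
  have hcast₁ : ∑ z ∈ S₁, (((mw_zeroMult ψ c₁ z).toNat : ℕ) : ℝ)
        * Real.log (mw_delta K' w (mw_vec x P) (mw_vec x z))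
      = ∑ z ∈ S₁, (mw_zeroMult ψ c₁ z : ℝ)
        * Real.log (mw_delta K' w (mw_vec x P) (mw_vec x z)) := by
    refine Finset.sum_congr rfl fun z _ => ?_
    have h0 := mw_v_zeroMult_nonneg ψ hψ0 z (mw_v_sec_ne_zero hψ hc₁)
    have : (((mw_zeroMult ψ c₁ z).toNat : ℕ) : ℝ) = (mw_zeroMult ψ c₁ z : ℝ) := by
      rw [← Int.cast_natCast, Int.toNat_of_nonneg h0]
    rw [this]
  have hcast₂ : ∑ z ∈ S₂, (((mw_zeroMult ψ c₂ z).toNat : ℕ) : ℝ)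
        * Real.log (mw_delta K' w (mw_vec x P) (mw_vec x z))
      = ∑ z ∈ S₂, (mw_zeroMult ψ c₂ z : ℝ)
        * Real.log (mw_delta K' w (mw_vec x P) (mw_vec x z)) := by
    refine Finset.sum_congr rfl fun z _ => ?_
    have h0 := mw_v_zeroMult_nonneg ψ hψ0 z (mw_v_sec_ne_zero hψ hc₂)
    have : (((mw_zeroMult ψ c₂ z).toNat : ℕ) : ℝ) = (mw_zeroMult ψ c₂ z : ℝ) := by
      rw [← Int.cast_natCast, Int.toNat_of_nonneg h0]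
    rw [this]
  rw [hcast₁, hcast₂, neg_mul] at hside
  exact mw_bll_place_arith hKL₁ hKL₂ hC₁ hC₂ hdot₁ hdot₂ hT₁ hT₂ hT₁' hT₂' hside

end Fermat.Agent.MW
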