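/-
Project MW (S17), leaf [BL↓] (helper24), part 8: globalisation.  For a point `P` off the base
divisor `𝔅` and off the moving zeros of the two sections, and a number field `K'` containing all the
coordinates, the sum over the places of `K'` of the inequality of `TwoSections.lean` is
`h_y(P) - h_𝔅(P) - C_gen ≤ h_ψ(P)`.
Prefix `mw_bll_`.
-/
import Fermat.Agent.MW.Global.BLlow.TwoSections

set_option autoImplicit false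
set_option linter.unusedSectionVars false

noncomputable section

namespace Fermat.Agent.MW

open AlgebraicCurve ModularCurve Height AdmissibleAbsValues
open scoped Classical

variable {N : ℕ} [NeZero N] {r s m : ℕ}

section Total

variable (K' : IntermediateField ℚ mw_K) [NumberField ↥K']

/-- `w ↦ log δ_w(u, v)` as a total function of `(u, v)` (`0` off the domain) -/
def mw_bll_ldx (u v : Fin (r + 1) → mw_K) : ↥(mw_glob_LF ↥K') :=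
  if h : (∀ i, u i ∈ K') ∧ (∀ i, v i ∈ K') ∧ u ≠ 0 ∧ v ≠ 0 ∧ mw_wedge u v ≠ 0 then
    mw_bll_ld K' u v h.1 h.2.1 h.2.2.1 h.2.2.2.1 h.2.2.2.2
  else 0

theorem mw_bll_ldx_apply {u v : Fin (r + 1) → mw_K} (hu : ∀ i, u i ∈ K') (hv : ∀ i, v i ∈ K')
    (hu0 : u ≠ 0) (hv0 : v ≠ 0) (huv : mw_wedge u v ≠ 0) (w : AbsoluteValue ↥K' ℝ) :
    (mw_bll_ldx K' u v).1 w = Real.log (mw_delta K' w u v) := by
  rw [mw_bll_ldx, dif_pos ⟨hu, hv, hu0, hv0, huv⟩]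
  exact mw_bll_ld_apply K' u v hu hv hu0 hv0 huv w

theorem mw_bll_tot_ldx {u v : Fin (r + 1) → mw_K} (hu : ∀ i, u i ∈ K') (hv : ∀ i, v i ∈ K')
    (hu0 : u ≠ 0) (hv0 : v ≠ 0) (huv : mw_wedge u v ≠ 0) :
    mw_glob_tot ↥K' (mw_bll_ldx K' u v)
      = (Module.finrank ℚ ↥K' : ℝ) * (mw_ht (mw_wedge u v) - mw_ht u - mw_ht v) := by
  rw [mw_bll_ldx, dif_pos ⟨hu, hv, hu0, hv0, huv⟩]
  exact mw_bll_tot_ld K' u v hu hv hu0 hv0 huv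

end Total

/-- the generic constant -/
def mw_bll_Cgen (x : Fin (r + 1) → mw_F N) (γ : ℝ) (cp : ℕ → ℝ) (Sp : Finset ℕ)
    (c₁ c₂ : Fin (m + 1) → mw_K) (S₁ S₂ : Finset (mw_X N)) (D : ℕ) : ℝ :=
  γ + ∑ p ∈ Sp, cp p * Real.log p + Real.log ((m : ℝ) + 1) + mw_ht (mw_bll_one c₁)
    + mw_ht (mw_bll_one c₂)
    + (D : ℝ) * (Real.log 3 + ∑ z₁ ∈ S₁, ∑ z₂ ∈ S₂, (Real.log 2 + mw_hD x z₁ z₂))

theorem mw_bll_generic {x : Fin (r + 1) → mw_F N} (hx : mw_IsRef N x) {Pinf : mw_X N}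
    {a : ℕ} {y : Fin (s + 1) → mw_F N}
    (hy : LinearIndependent mw_K y) {ψ : Fin (m + 1) → mw_F N} (hψ : LinearIndependent mw_K ψ)
    {M : Fin (m + 1) → Fin (s + 1) → mw_K} (hM : ∀ b, ψ b = mw_sec y (M b))
    (hpiv : ∀ z : mw_X N, z.ord (y (mw_piv y z)) = -(Finsupp.single Pinf (a : ℤ) : mw_Div N) z)
    {𝔅 : mw_Div N}
    (h𝔅 : ∀ z, 𝔅 z = z.ord (ψ (mw_piv ψ z)) + (Finsupp.single Pinf (a : ℤ) : mw_Div N) z)
    {c₁ c₂ : Fin (m + 1) → mw_K} (hc₁ : c₁ ≠ 0) (hc₂ : c₂ ≠ 0)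
    (hj₁ : ∃ j, mw_bll_tr M c₁ j = 1) (hj₂ : ∃ j, mw_bll_tr M c₂ j = 1)
    (hdisj : ∀ z : mw_X N, mw_zeroMult ψ c₁ z ≠ 0 → mw_zeroMult ψ c₂ z = 0)
    (S₁ S₂ : Finset (mw_X N)) (hS₁ : ∀ z, z ∈ S₁ ↔ mw_zeroMult ψ c₁ z ≠ 0)
    (hS₂ : ∀ z, z ∈ S₂ ↔ mw_zeroMult ψ c₂ z ≠ 0) (D : ℕ)
    (hD₁ : ∑ z ∈ S₁, (mw_zeroMult ψ c₁ z).toNat ≤ D)
    (hD₂ : ∑ z ∈ S₂, (mw_zeroMult ψ c₂ z).toNat ≤ D)
    {P : mw_X N} (hP𝔅 : P ∉ 𝔅.support) (hP₁ : P ∉ S₁) (hP₂ : P ∉ S₂)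
    (γ : ℝ) (cp : ℕ → ℝ) (Sp : Finset ℕ)
    (hSp : ∀ p : ℕ, p.Prime → cp p ≠ 0 → p ∈ Sp) (hSp' : ∀ p ∈ Sp, p.Prime)
    (K' : IntermediateField ℚ mw_K) [NumberField ↥K']
    (hKL : ∀ (w : AbsoluteValue ↥K' ℝ) (bnd : ℝ), mw_IsBound K' w γ cp bnd →
      mw_bll_KLat N x y K' w bnd)
    (hc₁K : ∀ b, c₁ b ∈ K') (hc₂K : ∀ b, c₂ b ∈ K')
    (hcc₁ : ∀ b, mw_bll_tr M c₁ b ∈ K') (hcc₂ : ∀ b, mw_bll_tr M c₂ b ∈ K')
    (hxP : ∀ b, mw_vec x P b ∈ K') (hyP : ∀ b, mw_vec y P b ∈ K')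
    (hu : ∀ b, mw_bll_u M (mw_vec y P) b ∈ K')
    (hxz : ∀ z, z ∈ 𝔅.support ∨ z ∈ S₁ ∨ z ∈ S₂ → ∀ b, mw_vec x z b ∈ K') :
    mw_ht (mw_vec y P) - mw_hDiv N x 𝔅 P - mw_bll_Cgen x γ cp Sp c₁ c₂ S₁ S₂ D
      ≤ mw_ht (mw_vec ψ P) := by
  have hli := hx.2.1
  have hx0 := mw_v_exists_ne_zero hli
  have hψ0 := mw_v_exists_ne_zero hψ
  have hy0 := mw_v_exists_ne_zero hy
  have hP𝔅' : 𝔅 P = 0 := by
    by_contra h
    exact hP𝔅 (Finsupp.mem_support_iff.mpr h)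
  -- `u = θ • ψ(P)`
  obtain ⟨θ, hθ, hθu⟩ := mw_bll_point hy hψ hM hpiv h𝔅 P hP𝔅'
  have hueq : mw_bll_u M (mw_vec y P) = fun b => θ * mw_vec ψ P b := funext hθu
  have hu0 : mw_bll_u M (mw_vec y P) ≠ 0 := by
    intro h0
    apply mw_v_vec_ne_zero ψ hψ0 P
    funext b
    have := congrFun h0 b
    rw [hueq] at this
    exact (mul_eq_zero.mp this).resolve_left hθ
  have hhtu : mw_ht (mw_bll_u M (mw_vec y P)) = mw_ht (mw_vec ψ P) := by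
    rw [hueq]
    exact mw_bll_ht_smul θ hθ _
  have hyP0 := mw_v_vec_ne_zero y hy0 P
  have hxP0 := mw_v_vec_ne_zero x hx0 P
  have hne : ∀ z₁ ∈ S₁, ∀ z₂ ∈ S₂, z₁ ≠ z₂ := by
    intro z₁ h₁ z₂ h₂ h
    subst h
    exact (hS₂ z₁).mp h₂ (hdisj z₁ ((hS₁ z₁).mp h₁))
  have hmem₁ : ∀ z ∈ S₁, ∀ b, mw_vec x z b ∈ K' := fun z hz => hxz z (Or.inr (Or.inl hz))
  have hmem₂ : ∀ z ∈ S₂, ∀ b, mw_vec x z b ∈ K' := fun z hz => hxz z (Or.inr (Or.inr hz))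
  have hmem𝔅 : ∀ z ∈ 𝔅.support, ∀ b, mw_vec x z b ∈ K' := fun z hz => hxz z (Or.inl hz)
  have hne𝔅 : ∀ z ∈ 𝔅.support, P ≠ z := fun z hz h => hP𝔅 (h ▸ hz)
  -- the bundled local functions
  set d : ℝ := (Module.finrank ℚ ↥K' : ℝ) with hd
  have hdpos : 0 < d := mw_glob_finrank_pos K'
  set LY := mw_glob_lw K' (mw_vec y P) hyP hyP0 with hLY
  set LU := mw_glob_lw K' (mw_bll_u M (mw_vec y P)) hu hu0 with hLU
  set T₁ := mw_glob_lw K' (mw_bll_one c₁) (mw_bll_one_mem K' hc₁K) (mw_bll_one_ne_zero c₁)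
    with hT₁
  set T₂ := mw_glob_lw K' (mw_bll_one c₂) (mw_bll_one_mem K' hc₂K) (mw_bll_one_ne_zero c₂)
    with hT₂
  set LB : ↥(mw_glob_LF ↥K') :=
    ∑ z ∈ 𝔅.support, (𝔅 z : ℝ) • mw_bll_ldx K' (mw_vec x P) (mw_vec x z) with hLB
  set LP : ↥(mw_glob_LF ↥K') :=
    ∑ z₁ ∈ S₁, ∑ z₂ ∈ S₂, (mw_glob_ac (K := ↥K') (Real.log 2)
      - mw_bll_ldx K' (mw_vec x z₁) (mw_vec x z₂)) with hLP
  set LE : ↥(mw_glob_LF ↥K') :=
    mw_glob_bd (K := ↥K') γ cp Sp + mw_glob_ac (K := ↥K') (Real.log ((m : ℝ) + 1)) + T₁ + T₂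
      + (D : ℝ) • (mw_glob_ac (K := ↥K') (Real.log 3) + LP) with hLE
  -- the inequality at every place
  have hplace : ∀ w : AbsoluteValue ↥K' ℝ,
      w ∈ archAbsVal (K := ↥K') ∨ w ∈ nonarchAbsVal (K := ↥K') →
      (LY + LB - LE).1 w ≤ LU.1 w := by
    intro w hw
    have hb := mw_glob_isBound K' γ cp Sp hSp hSp' hw
    have key := mw_bll_two_sections hx hy hψ hM hpiv h𝔅 hc₁ hc₂ hj₁ hj₂ hdisj S₁ S₂ hS₁ hS₂ D
      hD₁ hD₂ hP𝔅 hP₁ hP₂ K' w _ (hKL w _ hb) hc₁K hc₂K hcc₁ hcc₂ hxP hyP hu hu0 hxz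
    have eLB : LB.1 w
        = ∑ z ∈ 𝔅.support, (𝔅 z : ℝ) * Real.log (mw_delta K' w (mw_vec x P) (mw_vec x z)) := by
      rw [hLB]
      simp only [Submodule.coe_sum, Submodule.coe_smul, Finset.sum_apply, Pi.smul_apply,
        smul_eq_mul]
      refine Finset.sum_congr rfl fun z hz => ?_
      rw [mw_bll_ldx_apply K' hxP (hmem𝔅 z hz) hxP0 (mw_v_vec_ne_zero x hx0 z)
        (mw_emb_sep x hx P z (hne𝔅 z hz)) w]
    have eLP : LP.1 w = ∑ z₁ ∈ S₁, ∑ z₂ ∈ S₂, (mw_glob_archc (K := ↥K') (Real.log 2) w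
        - Real.log (mw_delta K' w (mw_vec x z₁) (mw_vec x z₂))) := by
      rw [hLP]
      simp only [Submodule.coe_sum, Submodule.coe_sub, Finset.sum_apply, Pi.sub_apply]
      refine Finset.sum_congr rfl fun z₁ h₁ => Finset.sum_congr rfl fun z₂ h₂ => ?_
      rw [mw_bll_ldx_apply K' (hmem₁ z₁ h₁) (hmem₂ z₂ h₂) (mw_v_vec_ne_zero x hx0 z₁)
        (mw_v_vec_ne_zero x hx0 z₂) (mw_emb_sep x hx z₁ z₂ (hne z₁ h₁ z₂ h₂)) w]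
      rfl
    have eLE : LE.1 w = mw_glob_bnd γ cp Sp w
        + mw_glob_archc (K := ↥K') (Real.log ((m : ℝ) + 1)) w
        + Real.log (mw_wnorm K' w (mw_bll_one c₁)) + Real.log (mw_wnorm K' w (mw_bll_one c₂))
        + (D : ℝ) * (mw_glob_archc (K := ↥K') (Real.log 3) w + LP.1 w) := by
      rw [hLE]
      simp only [Submodule.coe_add, Submodule.coe_smul, Pi.add_apply, Pi.smul_apply, smul_eq_mul]
      rw [hT₁, hT₂, mw_glob_lw_apply, mw_glob_lw_apply]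
      rfl
    have eL : (LY + LB - LE).1 w = LY.1 w + LB.1 w - LE.1 w := by
      simp only [Submodule.coe_add, Submodule.coe_sub, Pi.add_apply, Pi.sub_apply]
    rw [eL, eLE, eLP, eLB, hLY, hLU, mw_glob_lw_apply, mw_glob_lw_apply]
    exact key
  have htot := mw_glob_tot_le hplace
  -- the totals
  have tLB : mw_glob_tot ↥K' LB = -(d * mw_hDiv N x 𝔅 P) := by
    rw [hLB, map_sum, mw_hDiv, Finsupp.sum, Finset.mul_sum, ← Finset.sum_neg_distrib]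
    refine Finset.sum_congr rfl fun z hz => ?_
    rw [map_smul, smul_eq_mul, mw_bll_tot_ldx K' hxP (hmem𝔅 z hz) hxP0
      (mw_v_vec_ne_zero x hx0 z) (mw_emb_sep x hx P z (hne𝔅 z hz)), mw_hD]
    ring
  have tLP : mw_glob_tot ↥K' LP
      = d * ∑ z₁ ∈ S₁, ∑ z₂ ∈ S₂, (Real.log 2 + mw_hD x z₁ z₂) := by
    rw [hLP, map_sum, Finset.mul_sum]
    refine Finset.sum_congr rfl fun z₁ h₁ => ?_
    rw [map_sum, Finset.mul_sum]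
    refine Finset.sum_congr rfl fun z₂ h₂ => ?_
    rw [map_sub, mw_glob_tot_ac, mw_bll_tot_ldx K' (hmem₁ z₁ h₁) (hmem₂ z₂ h₂)
      (mw_v_vec_ne_zero x hx0 z₁) (mw_v_vec_ne_zero x hx0 z₂)
      (mw_emb_sep x hx z₁ z₂ (hne z₁ h₁ z₂ h₂)), mw_hD]
    ring
  have tLE : mw_glob_tot ↥K' LE = d * mw_bll_Cgen x γ cp Sp c₁ c₂ S₁ S₂ D := by
    rw [hLE, map_add, map_add, map_add, map_add, map_smul, map_add, smul_eq_mul, tLP,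
      mw_glob_tot_bd, mw_glob_tot_ac, mw_glob_tot_ac, hT₁, hT₂, mw_glob_tot_lw, mw_glob_tot_lw,
      mw_bll_Cgen]
    ring
  rw [map_sub, map_add, tLB, tLE, hLY, hLU, mw_glob_tot_lw, mw_glob_tot_lw, hhtu] at htot
  have : d * (mw_ht (mw_vec y P) - mw_hDiv N x 𝔅 P - mw_bll_Cgen x γ cp Sp c₁ c₂ S₁ S₂ D)
      ≤ d * mw_ht (mw_vec ψ P) := by linarith
  exact le_of_mul_le_mul_left this hdpos

end Fermat.Agent.MW
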