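/-
Project MW (S17), leaf [BL↓] (helper24), part 4: the geometry.  A subsystem `ψ` of the complete
system `y = L(a∞)`: the matrix `M` with `ψ = M y`, the `y`-coordinates `Mᵀc` of the section `⟨c, ψ⟩`,
its zero divisor as a section of `y` is `𝔅 +` its zero divisor as a section of `ψ`, the point
`M y(P) = θ ψ(P)`, and two sections of `ψ` with disjoint moving zeros.  Prefix `mw_bll_`.
-/
import Fermat.Agent.MW.Global.Seams
import Fermat.Agent.MW.Core.EMB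
import Fermat.Agent.MW.Core.INC.Place

set_option autoImplicit false
set_option linter.unusedSectionVars false

noncomputable section

namespace Fermat.Agent.MW

open AlgebraicCurve ModularCurve Fermat.Agent.JT3
open scoped Classical

variable {N : ℕ} [NeZero N] {s m : ℕ}

/-- the `y`-coordinates `Mᵀ c` of the section `⟨c, ψ⟩`, `ψ = M y` -/
def mw_bll_tr (M : Fin (m + 1) → Fin (s + 1) → mw_K) (c : Fin (m + 1) → mw_K) :
    Fin (s + 1) → mw_K := fun j => ∑ b, c b * M b j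

theorem mw_bll_exists_matrix {Pinf : mw_X N} {a : ℕ} {y : Fin (s + 1) → mw_F N}
    (hy : mw_IsComplete N Pinf a y) {ψ : Fin (m + 1) → mw_F N}
    (hψL : ∀ i, ψ i ∈ riemannRochSpace (Finsupp.single Pinf (a : ℤ))) :
    ∃ M : Fin (m + 1) → Fin (s + 1) → mw_K, ∀ b, ψ b = mw_sec y (M b) := by
  have h : ∀ b, ∃ c : Fin (s + 1) → mw_K, mw_sec y c = ψ b :=
    fun b => mw_emb_sec_of_mem hy.2 (hψL b)
  choose M hM using h
  exact ⟨M, fun b => (hM b).symm⟩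

theorem mw_bll_sec_tr {y : Fin (s + 1) → mw_F N} {ψ : Fin (m + 1) → mw_F N}
    {M : Fin (m + 1) → Fin (s + 1) → mw_K} (hM : ∀ b, ψ b = mw_sec y (M b))
    (c : Fin (m + 1) → mw_K) : mw_sec y (mw_bll_tr M c) = mw_sec ψ c := by
  simp only [mw_sec, mw_bll_tr, hM, map_sum, map_mul, Finset.sum_mul, Finset.mul_sum]
  rw [Finset.sum_comm]
  exact Finset.sum_congr rfl fun b _ => Finset.sum_congr rfl fun j _ => by ring

theorem mw_bll_dot_tr (M : Fin (m + 1) → Fin (s + 1) → mw_K) (c : Fin (m + 1) → mw_K)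
    (v : Fin (s + 1) → mw_K) :
    mw_dot (mw_bll_tr M c) v = mw_dot c fun b => mw_dot (M b) v := by
  simp only [mw_dot, mw_bll_tr, Finset.sum_mul, Finset.mul_sum]
  rw [Finset.sum_comm]
  exact Finset.sum_congr rfl fun b _ => Finset.sum_congr rfl fun j _ => by ring

theorem mw_bll_tr_smul (M : Fin (m + 1) → Fin (s + 1) → mw_K) (t : mw_K)
    (c : Fin (m + 1) → mw_K) :
    mw_bll_tr M (fun b => t * c b) = fun j => t * mw_bll_tr M c j := by
  funext j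
  simp only [mw_bll_tr, Finset.mul_sum, mul_assoc]

theorem mw_bll_tr_ne_zero {y : Fin (s + 1) → mw_F N} {ψ : Fin (m + 1) → mw_F N}
    (hψ : LinearIndependent mw_K ψ) {M : Fin (m + 1) → Fin (s + 1) → mw_K}
    (hM : ∀ b, ψ b = mw_sec y (M b)) {c : Fin (m + 1) → mw_K} (hc : c ≠ 0) :
    mw_bll_tr M c ≠ 0 := by
  intro h0
  have h1 := mw_bll_sec_tr hM c
  rw [h0] at h1
  have h2 : mw_sec y (0 : Fin (s + 1) → mw_K) = 0 := by simp [mw_sec]
  rw [h2] at h1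
  exact mw_v_sec_ne_zero hψ hc h1.symm

/-- the pivots of a complete system `L(a∞)`, `a ≥ k`, have order exactly `-a[z = ∞]` -/
theorem mw_bll_ord_piv_y {r : ℕ} {x : Fin (r + 1) → mw_F N} (hx : mw_IsRef N x) :
    ∃ k : ℕ, ∀ (Pinf : mw_X N) (a : ℕ), k ≤ a → ∀ (s : ℕ) (y : Fin (s + 1) → mw_F N),
      mw_IsComplete N Pinf a y → ∀ z : mw_X N,
        z.ord (y (mw_piv y z)) = -(Finsupp.single Pinf (a : ℤ) : mw_Div N) z := by
  obtain ⟨-, -, -, k, g, -, -, hex, -⟩ := hx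
  refine ⟨k, fun Pinf a hka s y hy z => ?_⟩
  have hy0 := mw_v_exists_ne_zero hy.1
  have hdeg : Divisor.degree (Finsupp.single Pinf (a : ℤ) : mw_Div N) = a := by
    rw [rt_degree_single (rt_isSepGen_jBar N)]
  refine mw_emb_ord_piv hy0 hy.2 z (mw_emb_exists_not_mem hex _ z ?_)
  rw [hdeg]
  have : (k : ℤ) ≤ a := by exact_mod_cast hka
  linarith

/-- the zero divisor of `⟨c, ψ⟩` as a section of `y` is `𝔅 +` its zero divisor as a section of
`ψ` -/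
theorem mw_bll_zeroMult_tr {Pinf : mw_X N} {a : ℕ} {y : Fin (s + 1) → mw_F N}
    (hy : LinearIndependent mw_K y) {ψ : Fin (m + 1) → mw_F N} (hψ : LinearIndependent mw_K ψ)
    {M : Fin (m + 1) → Fin (s + 1) → mw_K} (hM : ∀ b, ψ b = mw_sec y (M b))
    (hpiv : ∀ z : mw_X N, z.ord (y (mw_piv y z)) = -(Finsupp.single Pinf (a : ℤ) : mw_Div N) z)
    {𝔅 : mw_Div N}
    (h𝔅 : ∀ z, 𝔅 z = z.ord (ψ (mw_piv ψ z)) + (Finsupp.single Pinf (a : ℤ) : mw_Div N) z)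
    {c : Fin (m + 1) → mw_K} (hc : c ≠ 0) (z : mw_X N) :
    mw_zeroMult y (mw_bll_tr M c) z = mw_zeroMult ψ c z + 𝔅 z := by
  have hsec := mw_v_sec_ne_zero hψ hc
  rw [mw_zeroMult, mw_zeroMult, mw_bll_sec_tr hM, mw_inc_ord_div z hsec (hy.ne_zero _),
    mw_inc_ord_div z hsec (hψ.ne_zero _), h𝔅 z, hpiv z]
  ring

/-- `M y(P) = θ ψ(P)` with `θ ≠ 0`, for `P` outside the base divisor -/
theorem mw_bll_point {Pinf : mw_X N} {a : ℕ} {y : Fin (s + 1) → mw_F N}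
    (hy : LinearIndependent mw_K y) {ψ : Fin (m + 1) → mw_F N} (hψ : LinearIndependent mw_K ψ)
    {M : Fin (m + 1) → Fin (s + 1) → mw_K} (hM : ∀ b, ψ b = mw_sec y (M b))
    (hpiv : ∀ z : mw_X N, z.ord (y (mw_piv y z)) = -(Finsupp.single Pinf (a : ℤ) : mw_Div N) z)
    {𝔅 : mw_Div N}
    (h𝔅 : ∀ z, 𝔅 z = z.ord (ψ (mw_piv ψ z)) + (Finsupp.single Pinf (a : ℤ) : mw_Div N) z)
    (P : mw_X N) (hP : 𝔅 P = 0) :
    ∃ θ : mw_K, θ ≠ 0 ∧ ∀ b, mw_dot (M b) (mw_vec y P) = θ * mw_vec ψ P b := by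
  have hy0 := mw_v_exists_ne_zero hy
  have hψ0 := mw_v_exists_ne_zero hψ
  obtain ⟨hyp, -⟩ := mw_v_piv_spec y hy0 P
  obtain ⟨hψp, hψm⟩ := mw_v_piv_spec ψ hψ0 P
  have hq0 : ψ (mw_piv ψ P) / y (mw_piv y P) ≠ 0 := div_ne_zero hψp hyp
  have hord : P.ord (ψ (mw_piv ψ P) / y (mw_piv y P)) = 0 := by
    rw [mw_inc_ord_div P hψp hyp, hpiv P, ← hP, h𝔅 P]
    ring
  have hqmem : ψ (mw_piv ψ P) / y (mw_piv y P) ∈ P.toValuationSubring :=
    (mw_v_mem_iff P hq0).mpr hord.ge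
  refine ⟨mw_val P (ψ (mw_piv ψ P) / y (mw_piv y P)),
    mw_v_ne_zero_of_ord_eq_zero P hq0 hord, fun b => ?_⟩
  rw [mw_v_dot y hy0 P, ← hM b, mul_comm, mw_vec, ← mw_v_mul P (hψm b) hqmem]
  congr 1
  field_simp

/-- two sections of `ψ`, normalised in the `y`-coordinates, with disjoint moving zeros -/
theorem mw_bll_exists_sections {y : Fin (s + 1) → mw_F N} {ψ : Fin (m + 1) → mw_F N}
    (hψ : LinearIndependent mw_K ψ) {M : Fin (m + 1) → Fin (s + 1) → mw_K}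
    (hM : ∀ b, ψ b = mw_sec y (M b)) :
    ∃ c₁ c₂ : Fin (m + 1) → mw_K, c₁ ≠ 0 ∧ c₂ ≠ 0 ∧ (∃ j, mw_bll_tr M c₁ j = 1) ∧
      (∃ j, mw_bll_tr M c₂ j = 1) ∧
      ∀ z : mw_X N, mw_zeroMult ψ c₁ z ≠ 0 → mw_zeroMult ψ c₂ z = 0 := by
  have hψ0 := mw_v_exists_ne_zero hψ
  -- normalisation of an arbitrary nonzero `c`
  have hnorm : ∀ c : Fin (m + 1) → mw_K, c ≠ 0 → ∃ t : mw_K, t ≠ 0 ∧
      ∃ j, mw_bll_tr M (fun b => t * c b) j = 1 := by
    intro c hc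
    obtain ⟨j, hj⟩ := Function.ne_iff.mp (mw_bll_tr_ne_zero hψ hM hc)
    refine ⟨(mw_bll_tr M c j)⁻¹, inv_ne_zero hj, j, ?_⟩
    rw [mw_bll_tr_smul]
    exact inv_mul_cancel₀ hj
  have hsmul_ne : ∀ (c : Fin (m + 1) → mw_K) (t : mw_K), c ≠ 0 → t ≠ 0 →
      (fun b => t * c b) ≠ 0 := by
    intro c t hc ht h0
    apply hc
    funext b
    have := congrFun h0 b
    simpa [ht] using this
  -- first section
  have he : (fun b : Fin (m + 1) => if b = 0 then (1 : mw_K) else 0) ≠ 0 := by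
    intro h0
    have := congrFun h0 0
    simp at this
  obtain ⟨t₁, ht₁, hj₁⟩ := hnorm _ he
  set c₁ : Fin (m + 1) → mw_K := fun b => t₁ * (if b = 0 then (1 : mw_K) else 0) with hc₁
  have hc₁0 : c₁ ≠ 0 := hsmul_ne _ t₁ he ht₁
  have hfin := mw_inc_finite_zeroMult hψ hc₁0
  -- second section: avoid the hyperplanes `⟨·, ψ(z)⟩ = 0`, `z` a moving zero of the first
  have : Finite ↥{z : mw_X N | mw_zeroMult ψ c₁ z ≠ 0} := hfin.to_subtype
  let f : ↥{z : mw_X N | mw_zeroMult ψ c₁ z ≠ 0} → Module.Dual mw_K (Fin (m + 1) → mw_K) :=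
    fun z => ∑ b, mw_vec ψ z.1 b • LinearMap.proj b
  have hf : ∀ (z : ↥{z : mw_X N | mw_zeroMult ψ c₁ z ≠ 0}) (c : Fin (m + 1) → mw_K),
      f z c = mw_dot c (mw_vec ψ z.1) := by
    intro z c
    simp only [f, LinearMap.sum_apply, LinearMap.smul_apply, LinearMap.proj_apply, smul_eq_mul,
      mw_dot]
    exact Finset.sum_congr rfl fun b _ => mul_comm _ _
  have hex : ∀ z, ∃ c, f z c ≠ 0 := by
    intro z
    obtain ⟨b, hb⟩ := Function.ne_iff.mp (mw_v_vec_ne_zero ψ hψ0 z.1)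
    refine ⟨fun b' => if b' = b then 1 else 0, ?_⟩
    rw [hf, mw_dot]
    simpa using hb
  obtain ⟨c₂', hc₂'⟩ := Module.Dual.exists_forall_ne_zero_of_forall_exists f hex
  -- `c₂'` may be zero only if the first section has no moving zero
  by_cases hemp : ∃ z : mw_X N, mw_zeroMult ψ c₁ z ≠ 0
  · obtain ⟨z₀, hz₀⟩ := hemp
    have hc₂'0 : c₂' ≠ 0 := by
      intro h0
      have := hc₂' ⟨z₀, hz₀⟩
      rw [hf, h0, mw_dot] at this
      simp at this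
    obtain ⟨t₂, ht₂, hj₂⟩ := hnorm _ hc₂'0
    refine ⟨c₁, fun b => t₂ * c₂' b, hc₁0, hsmul_ne _ t₂ hc₂'0 ht₂, hj₁, hj₂, fun z hz => ?_⟩
    rw [mw_v_zeroMult_eq_zero_iff ψ hψ0 z
      (mw_v_sec_ne_zero hψ (hsmul_ne _ t₂ hc₂'0 ht₂))]
    have h1 := hc₂' ⟨z, hz⟩
    rw [hf] at h1
    have e : mw_dot (fun b => t₂ * c₂' b) (mw_vec ψ z) = t₂ * mw_dot c₂' (mw_vec ψ z) := by
      simp only [mw_dot, Finset.mul_sum, mul_assoc]
    rw [e]
    exact mul_ne_zero ht₂ h1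
  · push Not at hemp
    exact ⟨c₁, c₁, hc₁0, hc₁0, hj₁, hj₁, fun z hz => absurd (hemp z) hz⟩

end Fermat.Agent.MW
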